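import Mathlib

/-!
# S27 [H], abstract part: from three residuation relations to a group law in one chart
-/

set_option autoImplicit false

namespace Fermat.Agent.S27

open Topology Filter

variable {J : Type*} [AddCommGroup J]
variable {E : Type*} [NormedAddCommGroup E] [NormedSpace ℂ E]

/-- `φa u + φb u' + φc (ρ (u,u')) = 0` near `0` with `ρ` strictly differentiable at `0`. -/
def Res (φa φb φc : E → J) : Prop :=
  ∃ ρ : E × E → E, ρ (0, 0) = 0 ∧ (∃ L : E × E →L[ℂ] E, HasStrictFDerivAt ρ L (0, 0)) ∧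
    ∀ᶠ p : E × E in 𝓝 (0, 0), φa p.1 + φb p.2 + φc (ρ p) = 0

/-- `φa u + φc (ν u) = 0` near `0` with `ν` strictly differentiable at `0`. -/
def NegRel (φa φc : E → J) : Prop :=
  ∃ ν : E → E, ν 0 = 0 ∧ (∃ L : E →L[ℂ] E, HasStrictFDerivAt ν L 0) ∧
    ∀ᶠ u : E in 𝓝 0, φa u + φc (ν u) = 0

theorem Res.negRel {φa φb φc : E → J} (h : Res φa φb φc) (hb : φb 0 = 0) : NegRel φa φc := by
  obtain ⟨ρ, h0, ⟨L, hL⟩, hev⟩ := h
  have hi : HasStrictFDerivAt (fun u : E => (u, (0 : E))) (ContinuousLinearMap.inl ℂ E E) 0 :=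
    (ContinuousLinearMap.inl ℂ E E).hasStrictFDerivAt
  refine ⟨fun u => ρ (u, 0), h0, ⟨L.comp (ContinuousLinearMap.inl ℂ E E), ?_⟩, ?_⟩
  · exact HasStrictFDerivAt.comp (f := fun u : E => (u, (0 : E))) (0 : E) hL hi
  · have hc : Tendsto (fun u : E => (u, (0 : E))) (𝓝 0) (𝓝 (0, 0)) :=
      hi.continuousAt.tendsto
    filter_upwards [hc.eventually hev] with u hu
    simpa [hb] using hu

/-- composition of two negations: `φa u = φc (α u)`. -/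
theorem NegRel.trans {φa φb φc : E → J} (h₁ : NegRel φa φb) (h₂ : NegRel φb φc) :
    ∃ α : E → E, α 0 = 0 ∧ (∃ L : E →L[ℂ] E, HasStrictFDerivAt α L 0) ∧
      ∀ᶠ u : E in 𝓝 0, φc (α u) = φa u := by
  obtain ⟨ν₁, h10, ⟨L₁, hL₁⟩, he₁⟩ := h₁
  obtain ⟨ν₂, h20, ⟨L₂, hL₂⟩, he₂⟩ := h₂
  refine ⟨fun u => ν₂ (ν₁ u), by simp [h10, h20], ⟨L₂.comp L₁, ?_⟩, ?_⟩
  · have hL₂' : HasStrictFDerivAt ν₂ L₂ (ν₁ 0) := by rw [h10]; exact hL₂
    exact hL₂'.comp 0 hL₁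
  · have hc : Tendsto ν₁ (𝓝 0) (𝓝 0) := by
      have := hL₁.continuousAt.tendsto
      rwa [h10] at this
    filter_upwards [he₁, hc.eventually he₂] with u hu₁ hu₂
    have : φc (ν₂ (ν₁ u)) = -φb (ν₁ u) := eq_neg_of_add_eq_zero_right hu₂
    rw [this]
    exact (eq_neg_of_add_eq_zero_left hu₁).symm ▸ rfl

/-- the group law in the chart `φ₁`. -/
theorem exists_groupLaw {φ₁ φ₂ φ₃ : E → J} (h₂0 : φ₂ 0 = 0) (h₁0 : φ₁ 0 = 0)
    (h123 : Res φ₁ φ₂ φ₃) (h312 : Res φ₃ φ₁ φ₂) (h321 : Res φ₃ φ₂ φ₁) :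
    ∃ M : E × E → E, M (0, 0) = 0 ∧ (∃ L : E × E →L[ℂ] E, HasStrictFDerivAt M L (0, 0)) ∧
      ∀ᶠ p : E × E in 𝓝 (0, 0), φ₁ (M p) = φ₁ p.1 + φ₁ p.2 := by
  obtain ⟨α, hα0, ⟨Lα, hLα⟩, heα⟩ := (h123.negRel h₂0).trans (h312.negRel h₁0)
  obtain ⟨ν, hν0, ⟨Lν, hLν⟩, heν⟩ := h321.negRel h₂0
  obtain ⟨ρ, hρ0, ⟨Lρ, hLρ⟩, heρ⟩ := h123
  -- the map `(u,u') ↦ (u, α u')`
  have hfst : HasStrictFDerivAt (fun p : E × E => p.1) (ContinuousLinearMap.fst ℂ E E) (0, 0) :=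
    hasStrictFDerivAt_fst
  have hsnd : HasStrictFDerivAt (fun p : E × E => p.2) (ContinuousLinearMap.snd ℂ E E) (0, 0) :=
    hasStrictFDerivAt_snd
  have hα' : HasStrictFDerivAt (fun p : E × E => α p.2)
      (Lα.comp (ContinuousLinearMap.snd ℂ E E)) (0, 0) :=
    HasStrictFDerivAt.comp (f := fun p : E × E => p.2) ((0, 0) : E × E) hLα hsnd
  have hβ : HasStrictFDerivAt (fun p : E × E => (p.1, α p.2))
      ((ContinuousLinearMap.fst ℂ E E).prod (Lα.comp (ContinuousLinearMap.snd ℂ E E))) (0, 0) :=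
    hfst.prodMk hα'
  have hβ0 : (fun p : E × E => (p.1, α p.2)) (0, 0) = ((0, 0) : E × E) := by simp [hα0]
  have hρβ : HasStrictFDerivAt (fun p : E × E => ρ (p.1, α p.2))
      (Lρ.comp ((ContinuousLinearMap.fst ℂ E E).prod (Lα.comp (ContinuousLinearMap.snd ℂ E E))))
      (0, 0) := by
    have hLρ' : HasStrictFDerivAt ρ Lρ ((fun p : E × E => (p.1, α p.2)) (0, 0)) := by
      rw [hβ0]; exact hLρ
    exact hLρ'.comp (0, 0) hβ
  have hρβ0 : (fun p : E × E => ρ (p.1, α p.2)) (0, 0) = 0 := by simp [hα0, hρ0]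
  refine ⟨fun p => ν (ρ (p.1, α p.2)), by simp [hα0, hρ0, hν0],
    ⟨Lν.comp (Lρ.comp ((ContinuousLinearMap.fst ℂ E E).prod
      (Lα.comp (ContinuousLinearMap.snd ℂ E E)))), ?_⟩, ?_⟩
  · have hLν' : HasStrictFDerivAt ν Lν ((fun p : E × E => ρ (p.1, α p.2)) (0, 0)) := by
      rw [hρβ0]; exact hLν
    exact hLν'.comp (0, 0) hρβ
  · have hcβ : Tendsto (fun p : E × E => (p.1, α p.2)) (𝓝 (0, 0)) (𝓝 (0, 0)) := by
      have := hβ.continuousAt.tendsto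
      simpa [hα0] using this
    have hcρ : Tendsto (fun p : E × E => ρ (p.1, α p.2)) (𝓝 (0, 0)) (𝓝 0) := by
      have := hρβ.continuousAt.tendsto
      simpa [hα0, hρ0] using this
    have hc2 : Tendsto (fun p : E × E => p.2) (𝓝 (0, 0)) (𝓝 0) := hsnd.continuousAt.tendsto
    filter_upwards [hcβ.eventually heρ, hcρ.eventually heν, hc2.eventually heα] with p h1 h2 h3
    rw [h3] at h1
    have e1 : φ₁ (ν (ρ (p.1, α p.2))) = -φ₃ (ρ (p.1, α p.2)) := eq_neg_of_add_eq_zero_right h2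
    rw [e1]
    exact (eq_neg_of_add_eq_zero_left h1).symm ▸ rfl

end Fermat.Agent.S27
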