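import Fermat.Agent.S27.H.Geom
import Fermat.Agent.S27.H.Abstract
import Fermat.Agent.S27.E.Main
import Fermat.Agent.S27.G.Main
import Fermat.Agent.S27.C.Main
import Fermat.Agent.S27.F.Multi

/-!
# S27 [H]: the theorem over `ℂ`
-/

set_option autoImplicit false

universe v

namespace Fermat.Agent.S27

open AlgebraicCurve Fermat.Agent.S24.FF Topology Filter Metric

section

variable {F : Type*} [Field F] [Algebra ℂ F] [IsFF1 ℂ F]

omit [IsFF1 ℂ F] in
theorem chartMap_zero {n : ℕ} {P : Fin n → Place ℂ F} (c : ∀ i, Chart (P i)) :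
    chartMap c 0 = 0 := by
  unfold chartMap
  have : (fun i => (c i).w ((0 : Fin n → ℂ) i)) = P := funext fun i => (c i).w_zero
  rw [this, sub_self, cls_zero]

/-- `[w - v]` lies in a small ball of the chart `φ₁`, for `w` near `v`, if `v` avoids an auxiliary
nonspecial family `P` whose chart is related to `φ₁` by a negation. -/
theorem small_class_aux {g : ℕ} (hg : g = genusFF ℂ F) (P : Fin g → Place ℂ F)
    (hinj : Function.Injective P) (c : ∀ i, Chart (P i)) (hP : ell (sumPts P) = 1)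
    (φ₁ : (Fin g → ℂ) → Pic0 ℂ F) (hneg : NegRel (chartMap c) φ₁)
    (v : Place ℂ F) (hv : ∀ i, P i ≠ v) (r : ℝ) (hr : 0 < r) :
    ∀ᶠ w in 𝓝 v, ∃ u ∈ ball (0 : Fin g → ℂ) r,
      cls (Finsupp.single w 1 - Finsupp.single v 1 : Divisor ℂ F) = φ₁ u := by
  obtain ⟨ν, hν0, ⟨L, hL⟩, hev⟩ := hneg
  have hc : Tendsto ν (𝓝 0) (𝓝 0) := by
    have := hL.continuousAt.tendsto
    rwa [hν0] at this
  have h1 : ∀ᶠ u in 𝓝 (0 : Fin g → ℂ), ν u ∈ ball (0 : Fin g → ℂ) r :=
    hc.eventually (ball_mem_nhds 0 hr)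
  obtain ⟨r', hr', hball⟩ := Metric.eventually_nhds_iff_ball.mp (h1.and hev)
  filter_upwards [small_class_near hg P hinj c hP v hv r' hr'] with w hw
  obtain ⟨u, hu, hwu⟩ := hw
  obtain ⟨h2, h3⟩ := hball u hu
  refine ⟨ν u, h2, ?_⟩
  have e1 : cls (Finsupp.single w 1 - Finsupp.single v 1 : Divisor ℂ F) = -chartMap c u :=
    eq_neg_of_add_eq_zero_left hwu
  have e2 : φ₁ (ν u) = -chartMap c u := eq_neg_of_add_eq_zero_right h3
  rw [e1, e2]

end

theorem card_torsion_complex (Fc : Type v) [Field Fc] [Algebra ℂ Fc] [IsFF1 ℂ Fc] (n : ℕ)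
    (hn : 0 < n) : Nat.card (Pic0.torsion ℂ Fc n) = n ^ (2 * genusFF ℂ Fc) := by
  classical
  have hcomp : CompactSpace (Place ℂ Fc) := compactSpace_place
  obtain ⟨S, hS⟩ := exists_charts (F := Fc)
  -- three disjoint nonspecial families
  obtain ⟨P₁, hi₁, hS₁, hn₁⟩ := exists_nonspecial (K := ℂ) (F := Fc) S
  obtain ⟨P₂, hi₂, hS₂, hn₂⟩ := exists_nonspecial (K := ℂ) (F := Fc)
    (S ∪ Finset.univ.image P₁)
  obtain ⟨P₃, hi₃, hS₃, hn₃⟩ := exists_nonspecial (K := ℂ) (F := Fc)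
    (S ∪ Finset.univ.image P₁ ∪ Finset.univ.image P₂)
  have h12 : ∀ i j, P₁ i ≠ P₂ j := fun i j h => hS₂ j (by
    rw [← h]; exact Finset.mem_union_right _ (Finset.mem_image_of_mem _ (Finset.mem_univ i)))
  have h13 : ∀ i j, P₁ i ≠ P₃ j := fun i j h => hS₃ j (by
    rw [← h]
    exact Finset.mem_union_left _
      (Finset.mem_union_right _ (Finset.mem_image_of_mem _ (Finset.mem_univ i))))
  have h23 : ∀ i j, P₂ i ≠ P₃ j := fun i j h => hS₃ j (by
    rw [← h]; exact Finset.mem_union_right _ (Finset.mem_image_of_mem _ (Finset.mem_univ i)))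
  have c₁ : ∀ i, Chart (P₁ i) := fun i => (hS _ (hS₁ i)).some
  have c₂ : ∀ i, Chart (P₂ i) := fun i =>
    (hS _ (fun h => hS₂ i (Finset.mem_union_left _ h))).some
  have c₃ : ∀ i, Chart (P₃ i) := fun i =>
    (hS _ (fun h => hS₃ i (Finset.mem_union_left _ (Finset.mem_union_left _ h)))).some
  -- residuations
  have inj3 : ∀ {Pa Pb Pc : Fin (genusFF ℂ Fc) → Place ℂ Fc}, Function.Injective Pa →
      Function.Injective Pb → Function.Injective Pc → (∀ i j, Pa i ≠ Pb j) →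
      (∀ i j, Pa i ≠ Pc j) → (∀ i j, Pb i ≠ Pc j) →
      Function.Injective (Sum.elim Pa (Sum.elim Pb Pc)) := by
    intro Pa Pb Pc ha hb hc hab hac hbc
    refine ha.sumElim (hb.sumElim hc hbc) ?_
    rintro i (j | j)
    · exact hab i j
    · exact hac i j
  have R123 : Res (chartMap c₁) (chartMap c₂) (chartMap c₃) :=
    residuation rfl P₁ P₂ P₃ (inj3 hi₁ hi₂ hi₃ h12 h13 h23) c₁ c₂ c₃ hn₃
  have R312 : Res (chartMap c₃) (chartMap c₁) (chartMap c₂) :=
    residuation rfl P₃ P₁ P₂ (inj3 hi₃ hi₁ hi₂ (fun i j => (h13 j i).symm)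
      (fun i j => (h23 j i).symm) h12) c₃ c₁ c₂ hn₂
  have R321 : Res (chartMap c₃) (chartMap c₂) (chartMap c₁) :=
    residuation rfl P₃ P₂ P₁ (inj3 hi₃ hi₂ hi₁ (fun i j => (h23 j i).symm)
      (fun i j => (h13 j i).symm) (fun i j => (h12 j i).symm)) c₃ c₂ c₁ hn₁
  have R231 : Res (chartMap c₂) (chartMap c₃) (chartMap c₁) :=
    residuation rfl P₂ P₃ P₁ (inj3 hi₂ hi₃ hi₁ h23
      (fun i j => (h12 j i).symm) (fun i j => (h13 j i).symm)) c₂ c₃ c₁ hn₁
  have N31 : NegRel (chartMap c₃) (chartMap c₁) := R321.negRel (chartMap_zero c₂)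
  have N21 : NegRel (chartMap c₂) (chartMap c₁) := R231.negRel (chartMap_zero c₃)
  obtain ⟨M, hM0, ⟨L, hL⟩, hadd⟩ :=
    exists_groupLaw (chartMap_zero c₂) (chartMap_zero c₁) R123 R312 R321
  obtain ⟨r₀, hr₀, hinj⟩ := chartMap_injOn rfl P₁ P₃ (hi₁.sumElim hi₃ h13) c₁ c₃ hn₁ hn₃
  -- small classes
  have hsmall : ∀ (r : ℝ), 0 < r → ∀ v : Place ℂ Fc, ∀ᶠ w in 𝓝 v,
      ∃ u ∈ ball (0 : Fin (genusFF ℂ Fc) → ℂ) r,
        cls (Finsupp.single w 1 - Finsupp.single v 1 : Divisor ℂ Fc) = chartMap c₁ u := by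
    intro r hr v
    by_cases hv : ∀ i, P₂ i ≠ v
    · exact small_class_aux rfl P₂ hi₂ c₂ hn₂ _ N21 v hv r hr
    · push Not at hv
      obtain ⟨i₀, rfl⟩ := hv
      exact small_class_aux rfl P₃ hi₃ c₃ hn₃ _ N31 _ (fun i => (h23 i₀ i).symm) r hr
  -- a base point outside `S`
  have hinf : Infinite (Place ℂ Fc) := infinite_place (K := ℂ)
  obtain ⟨v₀, hv₀⟩ := Infinite.exists_notMem_finset S
  -- apply the abstract theorem
  have key := card_torsion_of_chart_multi (J := Pic0 ℂ Fc) (E := Fin (genusFF ℂ Fc) → ℂ)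
    (chartMap c₁) M r₀ hr₀ hinj (chartMap_zero c₁) hM0 ⟨_, hL.restrictScalars ℝ⟩ hadd ?_ ?_ n hn
  · -- conversion
    have hfr : Module.finrank ℝ (Fin (genusFF ℂ Fc) → ℂ) = 2 * genusFF ℂ Fc := by
      rw [Module.finrank_pi_fintype]
      simp [Complex.finrank_real_complex, mul_comm]
    rw [← hfr, ← key]
    refine Nat.card_congr (Equiv.subtypeEquivRight fun x => ?_)
    rw [Pic0.mem_torsion, natCast_zsmul]
  · -- total boundedness
    refine ⟨genusFF ℂ Fc, fun r hr => ?_⟩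
    obtain ⟨t, ht⟩ := CompactSpace.elim_nhds_subcover
      (fun v : Place ℂ Fc => {w | ∃ u ∈ ball (0 : Fin (genusFF ℂ Fc) → ℂ) r,
        cls (Finsupp.single w 1 - Finsupp.single v 1 : Divisor ℂ Fc) = chartMap c₁ u})
      (fun v => hsmall r hr v)
    refine ⟨(Fintype.piFinset (fun _ : Fin (genusFF ℂ Fc) => t)).image
      (fun j => ∑ i, cls (Finsupp.single (j i) 1 - Finsupp.single v₀ 1 : Divisor ℂ Fc)),
      fun c => ?_⟩
    obtain ⟨e, rfl⟩ := exists_cls_eq_sum v₀ c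
    have hex : ∀ i, ∃ x ∈ t, ∃ u ∈ ball (0 : Fin (genusFF ℂ Fc) → ℂ) r,
        cls (Finsupp.single (e i) 1 - Finsupp.single x 1 : Divisor ℂ Fc) = chartMap c₁ u := by
      intro i
      have : e i ∈ ⋃ x ∈ t, {w | ∃ u ∈ ball (0 : Fin (genusFF ℂ Fc) → ℂ) r,
        cls (Finsupp.single w 1 - Finsupp.single x 1 : Divisor ℂ Fc) = chartMap c₁ u} := by
        rw [ht]; trivial
      simp only [Set.mem_iUnion, exists_prop] at this
      exact this
    choose j hj u hu hju using hex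
    refine ⟨_, Finset.mem_image_of_mem _ (Fintype.mem_piFinset.mpr hj), u, hu, ?_⟩
    rw [← Finset.sum_add_distrib]
    refine Finset.sum_congr rfl fun i _ => ?_
    rw [cls_single_sub_trans (e i) (j i) v₀, hju i, add_comm]
  · -- generation
    intro r hr
    set H := AddSubgroup.closure (chartMap c₁ '' ball (0 : Fin (genusFF ℂ Fc) → ℂ) r) with hH
    have hnear : ∀ v : Place ℂ Fc, ∀ᶠ w in 𝓝 v,
        cls (Finsupp.single w 1 - Finsupp.single v 1 : Divisor ℂ Fc) ∈ H := by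
      intro v
      filter_upwards [hsmall r hr v] with w hw
      obtain ⟨u, hu, hwu⟩ := hw
      rw [hwu]
      exact AddSubgroup.subset_closure ⟨u, hu, rfl⟩
    set U : Set (Place ℂ Fc) :=
      {w | cls (Finsupp.single w 1 - Finsupp.single v₀ 1 : Divisor ℂ Fc) ∈ H} with hU
    have hUopen : IsOpen U := by
      rw [isOpen_iff_mem_nhds]
      intro v hv
      filter_upwards [hnear v] with w hw
      show cls (Finsupp.single w 1 - Finsupp.single v₀ 1 : Divisor ℂ Fc) ∈ H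
      rw [cls_single_sub_trans w v v₀]
      exact H.add_mem hw hv
    have hUclosed : IsClosed U := by
      rw [← isOpen_compl_iff, isOpen_iff_mem_nhds]
      intro v hv
      filter_upwards [hnear v] with w hw hwU
      apply hv
      show cls (Finsupp.single v 1 - Finsupp.single v₀ 1 : Divisor ℂ Fc) ∈ H
      have h1 : cls (Finsupp.single w 1 - Finsupp.single v₀ 1 : Divisor ℂ Fc) ∈ H := hwU
      rw [cls_single_sub_trans w v v₀] at h1
      exact (H.add_mem_cancel_left hw).mp h1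
    have hv₀U : v₀ ∈ U := by
      show cls (Finsupp.single v₀ 1 - Finsupp.single v₀ 1 : Divisor ℂ Fc) ∈ H
      rw [sub_self, cls_zero]
      exact H.zero_mem
    have hUuniv : U = Set.univ := clopen_eq_univ S hS U ⟨hUclosed, hUopen⟩ v₀ hv₀U hv₀
    rw [eq_top_iff]
    intro c _
    obtain ⟨e, rfl⟩ := exists_cls_eq_sum v₀ c
    refine H.sum_mem fun i _ => ?_
    have : e i ∈ U := by rw [hUuniv]; trivial
    exact this

end Fermat.Agent.S27
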