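import Fermat.Agent.S27.A.Riemann
import Fermat.Agent.S27.A.Api

/-!
# S27 [H], geometric part: divisor bookkeeping
-/

set_option autoImplicit false

namespace Fermat.Agent.S27

open AlgebraicCurve Fermat.Agent.S24.FF Topology Filter Metric

section General

variable {K F : Type*} [Field K] [Field F] [Algebra K F] [IsAlgClosed K] [CharZero K] [IsFF1 K F]

theorem degree_single_sub_single (w v : Place K F) :
    Divisor.degree (Finsupp.single w 1 - Finsupp.single v 1 : Divisor K F) = 0 := by
  rw [map_sub, Divisor.degree_single, Divisor.degree_single, deg_eq_one, deg_eq_one]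
  simp

/-- `[w - v₀] = [w - v] + [v - v₀]`. -/
theorem cls_single_sub_trans (w v v₀ : Place K F) :
    cls (Finsupp.single w 1 - Finsupp.single v₀ 1 : Divisor K F) =
      cls (Finsupp.single w 1 - Finsupp.single v 1 : Divisor K F) +
        cls (Finsupp.single v 1 - Finsupp.single v₀ 1 : Divisor K F) := by
  rw [← cls_add (degree_single_sub_single w v) (degree_single_sub_single v v₀)]
  congr 1
  abel

/-- an effective divisor of degree `n` is a sum of `n` points. -/
theorem exists_sumPts_eq (n : ℕ) (E : Divisor K F) (hE : ∀ v, 0 ≤ E v)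
    (hdeg : Divisor.degree E = n) : ∃ e : Fin n → Place K F, E = sumPts e := by
  classical
  induction n generalizing E with
  | zero =>
    refine ⟨Fin.elim0, ?_⟩
    have h1 := degree_eq_sum_of_support_subset E E.support subset_rfl
    rw [hdeg] at h1
    have h2 := (Finset.sum_eq_zero_iff_of_nonneg (fun v _ => hE v)).mp h1.symm
    ext v
    by_cases hv : v ∈ E.support
    · simpa [sumPts] using h2 v hv
    · simpa [sumPts] using Finsupp.notMem_support_iff.mp hv
  | succ n ih =>
    have hex : ∃ v, 0 < E v := by
      by_contra hcon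
      push Not at hcon
      have h0 : E = 0 := by
        ext v
        exact le_antisymm (hcon v) (hE v)
      rw [h0, map_zero] at hdeg
      exact absurd hdeg (by positivity)
    obtain ⟨v, hv⟩ := hex
    obtain ⟨e, he⟩ := ih (E - Finsupp.single v 1) (fun u => by
      rw [Finsupp.sub_apply]
      by_cases huv : v = u
      · subst huv
        rw [Finsupp.single_eq_same]; omega
      · rw [Finsupp.single_eq_of_ne' huv]
        simpa using hE u) (by
      rw [map_sub, hdeg, Divisor.degree_single, deg_eq_one]
      push_cast; ring)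
    refine ⟨Fin.cons v e, ?_⟩
    have : sumPts (Fin.cons v e : Fin (n + 1) → Place K F) = Finsupp.single v 1 + sumPts e := by
      simp [sumPts, Fin.sum_univ_succ]
    rw [this, ← he]
    abel

/-- every class in `Pic⁰` is a sum of `g` classes `[e_i - v₀]`. -/
theorem exists_cls_eq_sum (v₀ : Place K F) (c : Pic0 K F) :
    ∃ e : Fin (genusFF K F) → Place K F,
      c = ∑ i, cls (Finsupp.single (e i) 1 - Finsupp.single v₀ 1 : Divisor K F) := by
  classical
  obtain ⟨D, hD, rfl⟩ := cls_surjective c
  set g := genusFF K F with hg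
  set D' : Divisor K F := D + Finsupp.single v₀ (g : ℤ) with hD'
  have hdeg' : Divisor.degree D' = g := by
    rw [hD', map_add, hD, Divisor.degree_single, deg_eq_one]; simp
  have hell : 0 < ell D' := by
    have h := ell_sub_hh1 D'
    rw [hdeg'] at h
    have : (0 : ℤ) < ell D' := by
      have h2 : (0 : ℤ) ≤ hh1 D' := Int.natCast_nonneg _
      omega
    exact_mod_cast this
  have : Nontrivial (riemannRochSpace D') := Module.nontrivial_of_finrank_pos hell
  obtain ⟨⟨f, hf⟩, hf0⟩ := exists_ne (0 : riemannRochSpace D')
  have hf0' : f ≠ 0 := fun h => hf0 (Subtype.ext h)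
  obtain ⟨Df, hDf⟩ := exists_divisor_of_ne_zero (K := K) f
  have hDfdeg : Divisor.degree Df = 0 := degree_eq_zero_of_principal hf0' Df hDf
  rw [mem_riemannRochSpace_iff] at hf
  obtain ⟨e, he⟩ := exists_sumPts_eq g (D' + Df) (fun v => by
    rw [Finsupp.add_apply, hDf v]
    rcases hf v with h | h
    · exact absurd h hf0'
    · omega) (by rw [map_add, hdeg', hDfdeg, add_zero])
  refine ⟨e, ?_⟩
  rw [← cls_sum Finset.univ _ (fun i _ => degree_single_sub_single (e i) v₀)]
  have hsum : ∑ i, (Finsupp.single (e i) 1 - Finsupp.single v₀ 1 : Divisor K F) = D + Df := by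
    rw [Finset.sum_sub_distrib]
    have h1 : ∑ i, (Finsupp.single (e i) 1 : Divisor K F) = D' + Df := he.symm
    have h2 : ∑ _i : Fin g, (Finsupp.single v₀ 1 : Divisor K F) = Finsupp.single v₀ (g : ℤ) := by
      rw [Finset.sum_const, Finset.card_univ, Fintype.card_fin, Finsupp.smul_single]
      simp
    rw [h1, h2, hD']
    abel
  rw [hsum, cls_add hD hDfdeg]
  have : cls Df = 0 := (cls_eq_zero_iff hDfdeg).mpr ⟨f, hf0', hDf⟩
  rw [this, add_zero]

end General

end Fermat.Agent.S27
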